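import Mathlib.RingTheory.Valuation.LocalSubring
import Mathlib.RingTheory.Polynomial.Content
import Mathlib.RingTheory.Localization.Integral
import Mathlib.RingTheory.IntegralClosure.IntegrallyClosed
import Mathlib.Tactic

set_option autoImplicit false

namespace Fermat.Agent.S54.H94

open Polynomial

variable {L : Type*} [Field L]

/-- An element lying in every valuation subring is integral over `ℤ`. -/
lemma isIntegral_int_of_forall_mem_valuationSubring (y : L)
    (h : ∀ V : ValuationSubring L, y ∈ V) : IsIntegral ℤ y := by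
  by_contra hy
  have hR : IsIntegrallyClosedIn (integralClosure ℤ L).toSubring L := by
    rw [Subring.isIntegrallyClosedIn_iff]
    intro z hz
    have hz' : IsIntegral (integralClosure ℤ L) z := hz
    exact isIntegral_trans (R := ℤ) (A := integralClosure ℤ L) z hz'
  obtain ⟨V, -, hV⟩ := Subring.exists_le_valuationSubring_of_isIntegrallyClosedIn
    (R := (integralClosure ℤ L).toSubring) (x := y) hy
  exact hV (h V)

/-- The "upper part" of a polynomial relation. -/
noncomputable def upperPart (f : ℤ[X]) (x : L) (r : ℕ) : L :=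
  ∑ i ∈ Finset.range (f.natDegree + 1 - r), (f.coeff (r + i) : L) * x ^ i

lemma lower_add_upper (f : ℤ[X]) (x : L) (r : ℕ) (hr : r ≤ f.natDegree + 1) :
    ∑ i ∈ Finset.range r, (f.coeff i : L) * x ^ i + x ^ r * upperPart f x r = aeval x f := by
  rw [aeval_eq_sum_range, upperPart]
  have : f.natDegree + 1 = r + (f.natDegree + 1 - r) := by omega
  conv_rhs => rw [this, Finset.sum_range_add]
  congr 1
  · refine Finset.sum_congr rfl fun i _ => ?_
    simp [zsmul_eq_mul]
  · rw [Finset.mul_sum]
    refine Finset.sum_congr rfl fun i _ => ?_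
    simp only [zsmul_eq_mul]
    ring

lemma upperPart_mem (f : ℤ[X]) (x : L) (r : ℕ) (V : ValuationSubring L) (hx : x ∈ V) :
    upperPart f x r ∈ V := by
  refine sum_mem fun i _ => mul_mem ?_ (pow_mem hx i)
  exact intCast_mem V _

lemma mul_upperPart_mem_of_not_mem (f : ℤ[X]) (x : L) (r : ℕ) (hr : r ≤ f.natDegree + 1)
    (hf : aeval x f = 0) (V : ValuationSubring L) (hx : x ∉ V) :
    x * upperPart f x r ∈ V := by
  have hx0 : x ≠ 0 := fun h => hx (h ▸ V.zero_mem)
  have hy : x⁻¹ ∈ V := (V.mem_or_inv_mem x).resolve_left hx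
  have key := lower_add_upper f x r hr
  rw [hf] at key
  rcases r with _ | k
  · simp only [Finset.range_zero, Finset.sum_empty, pow_zero, one_mul, zero_add] at key
    rw [key, mul_zero]
    exact V.zero_mem
  · have h2 : x ^ (k + 1) * upperPart f x (k + 1) =
        -∑ i ∈ Finset.range (k + 1), (f.coeff i : L) * x ^ i := by
      linear_combination key
    have h3 : x * upperPart f x (k + 1) =
        (x⁻¹) ^ k * (x ^ (k + 1) * upperPart f x (k + 1)) := by
      rw [← mul_assoc, pow_succ, ← mul_assoc, ← mul_pow, inv_mul_cancel₀ hx0, one_pow, one_mul]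
    have h1 : x * upperPart f x (k + 1) =
        -∑ i ∈ Finset.range (k + 1), (f.coeff i : L) * (x⁻¹) ^ (k - i) := by
      rw [h3, h2, mul_neg, Finset.mul_sum]
      congr 1
      refine Finset.sum_congr rfl fun i hi => ?_
      have hik : i ≤ k := Nat.lt_succ_iff.mp (Finset.mem_range.mp hi)
      obtain ⟨j, rfl⟩ := Nat.exists_eq_add_of_le hik
      rw [Nat.add_sub_cancel_left, pow_add]
      have : (x⁻¹) ^ i * x ^ i = 1 := by rw [← mul_pow, inv_mul_cancel₀ hx0, one_pow]
      linear_combination ((f.coeff i : L) * x⁻¹ ^ j) * this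
    rw [h1]
    exact neg_mem (sum_mem fun i _ => mul_mem (intCast_mem V _) (pow_mem hy _))

lemma upperPart_mem_of_not_mem (f : ℤ[X]) (x : L) (r : ℕ) (hr : r ≤ f.natDegree + 1)
    (hf : aeval x f = 0) (V : ValuationSubring L) (hx : x ∉ V) :
    upperPart f x r ∈ V := by
  have hx0 : x ≠ 0 := fun h => hx (h ▸ V.zero_mem)
  have hy : x⁻¹ ∈ V := (V.mem_or_inv_mem x).resolve_left hx
  have h := mul_mem hy (mul_upperPart_mem_of_not_mem f x r hr hf V hx)
  rwa [← mul_assoc, inv_mul_cancel₀ hx0, one_mul] at h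

lemma isIntegral_upperPart (f : ℤ[X]) (x : L) (r : ℕ) (hr : r ≤ f.natDegree + 1)
    (hf : aeval x f = 0) : IsIntegral ℤ (upperPart f x r) := by
  refine isIntegral_int_of_forall_mem_valuationSubring _ fun V => ?_
  by_cases hx : x ∈ V
  · exact upperPart_mem f x r V hx
  · exact upperPart_mem_of_not_mem f x r hr hf V hx

lemma isIntegral_mul_upperPart (f : ℤ[X]) (x : L) (r : ℕ) (hr : r ≤ f.natDegree + 1)
    (hf : aeval x f = 0) : IsIntegral ℤ (x * upperPart f x r) := by
  refine isIntegral_int_of_forall_mem_valuationSubring _ fun V => ?_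
  by_cases hx : x ∈ V
  · exact mul_mem hx (upperPart_mem f x r V hx)
  · exact mul_upperPart_mem_of_not_mem f x r hr hf V hx

lemma zero_mem_nonunits' (A : ValuationSubring L) : (0 : L) ∈ A.nonunits := by
  rw [ValuationSubring.mem_nonunits_iff, map_zero]
  exact zero_lt_one

lemma one_not_mem_nonunits' (A : ValuationSubring L) : (1 : L) ∉ A.nonunits := by
  rw [ValuationSubring.mem_nonunits_iff, map_one]
  exact lt_irrefl _

lemma upperPart_not_mem_nonunits (A : ValuationSubring L) (f : ℤ[X]) (x : L) (hx : x ∈ A)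
    (r : ℕ) (hr : ((f.coeff r : ℤ) : L) ∉ A.nonunits)
    (hr' : ∀ i, r < i → ((f.coeff i : ℤ) : L) ∈ A.nonunits) (hrn : r ≤ f.natDegree) :
    upperPart f x r ∉ A.nonunits := by
  rw [ValuationSubring.mem_nonunits_iff, not_lt]
  have hm : f.natDegree + 1 - r = (f.natDegree - r) + 1 := by omega
  rw [upperPart, hm, Finset.sum_range_succ']
  have h1 : A.valuation (∑ i ∈ Finset.range (f.natDegree - r),
      (f.coeff (r + (i + 1)) : L) * x ^ (i + 1)) < 1 := by
    apply Valuation.map_sum_lt _ one_ne_zero
    intro i _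
    rw [map_mul]
    have ha : A.valuation (f.coeff (r + (i + 1)) : L) < 1 :=
      A.mem_nonunits_iff.mp (hr' _ (by omega))
    have hxi : A.valuation (x ^ (i + 1)) ≤ 1 :=
      (A.valuation_le_one_iff _).mpr (pow_mem hx _)
    exact mul_lt_one_of_lt_of_le ha hxi
  have h2 : A.valuation ((f.coeff (r + 0) : L) * x ^ 0) = 1 := by
    rw [pow_zero, mul_one, add_zero]
    have hle : A.valuation (f.coeff r : L) ≤ 1 :=
      (A.valuation_le_one_iff _).mpr (intCast_mem A _)
    have hnlt : ¬ A.valuation (f.coeff r : L) < 1 := fun h =>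
      hr (A.mem_nonunits_iff.mpr h)
    exact le_antisymm hle (not_lt.mp hnlt)
  rw [Valuation.map_add_eq_of_lt_right _ (h1.trans_eq h2.symm), h2]

lemma exists_coeff_not_mem_nonunits (A : ValuationSubring L) (f : ℤ[X]) (hf : f.IsPrimitive) :
    ∃ j, ((f.coeff j : ℤ) : L) ∉ A.nonunits := by
  by_contra h
  simp only [not_exists, not_not] at h
  let p : Ideal ℤ := Ideal.comap (Int.castRingHom A) (IsLocalRing.maximalIdeal A)
  have hp : ∀ a : ℤ, a ∈ p ↔ ((a : ℤ) : L) ∈ A.nonunits := by
    intro a
    rw [Ideal.mem_comap, ← ValuationSubring.coe_mem_nonunits_iff]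
    simp
  obtain ⟨g, hg⟩ := IsPrincipalIdealRing.principal p
  have hdvd : C g ∣ f := (C_dvd_iff_dvd_coeff g f).mpr fun i => by
    have hi : f.coeff i ∈ p := (hp _).mpr (h i)
    rw [hg] at hi
    exact Ideal.mem_span_singleton.mp hi
  have hu : IsUnit g := hf g hdvd
  have h1 : (1 : ℤ) ∈ p := by
    rw [hg]
    exact Ideal.mem_span_singleton.mpr hu.dvd
  have h1' := (hp 1).mp h1
  rw [Int.cast_one] at h1'
  exact one_not_mem_nonunits' A h1'

/-- Every element of a valuation subring `A` of a field of characteristic zero which is algebraic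
over `ℤ` is a quotient `b / s` of elements integral over `ℤ` with `s` a unit of `A`. -/
theorem exists_integral_div_of_mem [CharZero L] (A : ValuationSubring L) (x : L) (hx : x ∈ A)
    (halg : IsAlgebraic ℤ x) :
    ∃ b s : L, IsIntegral ℤ b ∧ IsIntegral ℤ s ∧ s ∉ A.nonunits ∧ x * s = b := by
  classical
  obtain ⟨f0, hf0, hf0x⟩ := halg
  have hfx : aeval x f0.primPart = 0 := aeval_primPart_eq_zero hf0 hf0x
  obtain ⟨j, hj⟩ := exists_coeff_not_mem_nonunits A f0.primPart (isPrimitive_primPart f0)
  have hjn : j ≤ f0.primPart.natDegree := by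
    by_contra hlt
    rw [not_le] at hlt
    apply hj
    rw [coeff_eq_zero_of_natDegree_lt hlt, Int.cast_zero]
    exact zero_mem_nonunits' A
  have hrP := Nat.findGreatest_spec (P := fun i => ((f0.primPart.coeff i : ℤ) : L) ∉ A.nonunits)
    hjn hj
  have hrn : Nat.findGreatest (fun i => ((f0.primPart.coeff i : ℤ) : L) ∉ A.nonunits)
      f0.primPart.natDegree ≤ f0.primPart.natDegree := Nat.findGreatest_le _
  have hr' : ∀ i, Nat.findGreatest (fun i => ((f0.primPart.coeff i : ℤ) : L) ∉ A.nonunits)
      f0.primPart.natDegree < i → ((f0.primPart.coeff i : ℤ) : L) ∈ A.nonunits := by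
    intro i hi
    by_contra hPi
    by_cases hin : i ≤ f0.primPart.natDegree
    · exact Nat.findGreatest_is_greatest hi hin hPi
    · apply hPi
      rw [coeff_eq_zero_of_natDegree_lt (not_le.mp hin), Int.cast_zero]
      exact zero_mem_nonunits' A
  exact ⟨x * upperPart f0.primPart x _, upperPart f0.primPart x _,
    isIntegral_mul_upperPart f0.primPart x _ (by omega) hfx,
    isIntegral_upperPart f0.primPart x _ (by omega) hfx,
    upperPart_not_mem_nonunits A f0.primPart x hx _ hrP hr' hrn, rfl⟩

end Fermat.Agent.S54.H94
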