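import Mathlib.RingTheory.Invariant.Profinite
import Mathlib.FieldTheory.Galois.Profinite
import Mathlib.FieldTheory.Galois.Infinite
import Mathlib.FieldTheory.KrullTopology
import Mathlib.RingTheory.Valuation.RamificationGroup
import Mathlib.FieldTheory.IsAlgClosed.AlgebraicClosure
import Mathlib.RingTheory.Valuation.Integral
import Mathlib.FieldTheory.Perfect
import Fermat.Prelude.Def_EllipticCurve_FrobeniusTrace
import Fermat.Agent.S54.H94.ValLemma

set_option autoImplicit false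

namespace Fermat.Agent.S54.H94

open scoped Pointwise

local notation "Qbar" => AlgebraicClosure ℚ
local notation "Γ" => (AlgebraicClosure ℚ ≃ₐ[ℚ] AlgebraicClosure ℚ)
local notation "𝓑" => integralClosure ℤ (AlgebraicClosure ℚ)

theorem algebra_rat_qbar_eq :
    (DivisionRing.toRatAlgebra : Algebra ℚ Qbar) = AlgebraicClosure.instAlgebra ℚ :=
  Subsingleton.elim _ _

instance isGalois_rat_qbar : IsGalois ℚ Qbar := by
  rw [algebra_rat_qbar_eq]
  infer_instance

instance isInvariant_int : Algebra.IsInvariant ℤ 𝓑 Γ where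
  isInvariant b hb := by
    have h1 : (b : Qbar) ∈ Set.range (algebraMap ℚ Qbar) := by
      rw [InfiniteGalois.mem_range_algebraMap_iff_fixed]
      intro f
      exact congrArg Subtype.val (hb f)
    obtain ⟨q, hq⟩ := h1
    have h2 : IsIntegral ℤ q := by
      have := b.2
      rw [← hq] at this
      exact (isIntegral_algebraMap_iff (algebraMap ℚ Qbar).injective).mp this
    obtain ⟨n, hn⟩ := IsIntegrallyClosed.isIntegral_iff.mp h2
    refine ⟨n, Subtype.ext ?_⟩
    rw [← hq, ← hn]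
    simp

/-- The discrete topology on the ring of algebraic integers. -/
local instance topB : TopologicalSpace 𝓑 := ⊥

local instance discreteTopB : DiscreteTopology 𝓑 := ⟨rfl⟩

instance continuousSMul_B : ContinuousSMul Γ 𝓑 := by
  rw [continuousSMul_iff_stabilizer_isOpen]
  intro b
  have h := stabilizer_isOpen_of_isIntegral (K := ℚ) (b : Qbar)
  have heq : (MulAction.stabilizer Γ b : Set Γ) = (MulAction.stabilizer Γ (b : Qbar) : Set Γ) := by
    ext g
    simp only [SetLike.mem_coe, MulAction.mem_stabilizer_iff, Subtype.ext_iff,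
      integralClosure.coe_smul]
  rw [heq]
  exact h

/-- Elements integral over `ℤ` lie in every valuation subring. -/
lemma mem_valuationSubring_of_isIntegral {L : Type*} [Field L] (A : ValuationSubring L) {b : L}
    (hb : IsIntegral ℤ b) : b ∈ A := by
  have h1 : IsIntegral A b := hb.tower_top
  obtain ⟨y, rfl⟩ := IsIntegrallyClosed.isIntegral_iff.mp h1
  exact y.2

section Frob

variable (A : ValuationSubring Qbar)

/-- The inclusion of the ring of algebraic integers in a valuation subring. -/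
noncomputable def inclB : 𝓑 →+* A :=
  (algebraMap 𝓑 Qbar).codRestrict A.toSubring fun b => mem_valuationSubring_of_isIntegral A b.2

@[simp] lemma coe_inclB (b : 𝓑) : ((inclB A b : A) : Qbar) = (b : Qbar) := rfl

/-- The prime of the ring of algebraic integers cut out by a valuation subring. -/
noncomputable def primeB : Ideal 𝓑 := (IsLocalRing.maximalIdeal A).comap (inclB A)

instance primeB_isPrime : (primeB A).IsPrime :=
  Ideal.comap_isPrime (inclB A) (IsLocalRing.maximalIdeal A)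

lemma mem_primeB_iff (b : 𝓑) : b ∈ primeB A ↔ (b : Qbar) ∈ A.nonunits := by
  rw [primeB, Ideal.mem_comap, ← ValuationSubring.coe_mem_nonunits_iff, coe_inclB]

variable {A} {ℓ : ℕ}

lemma primeB_liesOver (hℓ : ℓ.Prime) (hA : A.LiesOverPrime ℓ) :
    (primeB A).LiesOver (Ideal.span {(ℓ : ℤ)}) := by
  constructor
  have hmax : (Ideal.span {(ℓ : ℤ)}).IsMaximal :=
    PrincipalIdealRing.isMaximal_of_irreducible (Nat.prime_iff_prime_int.mp hℓ).irreducible
  refine hmax.eq_of_le ?_ ?_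
  · exact Ideal.IsPrime.ne_top (Ideal.comap_isPrime (algebraMap ℤ 𝓑) (primeB A))
  · rw [Ideal.span_singleton_le_iff_mem, Ideal.under, Ideal.mem_comap, mem_primeB_iff]
    have : ((algebraMap ℤ 𝓑 (ℓ : ℤ) : 𝓑) : Qbar) = (ℓ : Qbar) := by simp
    rw [this]
    exact hA

end Frob

section FrobEquiv

variable {A : ValuationSubring Qbar} {ℓ : ℕ}

lemma charP_quot_primeB (hℓ : ℓ.Prime) (hA : A.LiesOverPrime ℓ) : CharP (𝓑 ⧸ primeB A) ℓ := by
  rw [CharP.charP_iff_prime_eq_zero hℓ]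
  have h : (Ideal.Quotient.mk (primeB A) (ℓ : 𝓑)) = 0 := by
    rw [Ideal.Quotient.eq_zero_iff_mem, mem_primeB_iff]
    have : (((ℓ : 𝓑) : 𝓑) : Qbar) = (ℓ : Qbar) := by simp
    rw [this]
    exact hA
  simpa using h

lemma exists_pow_eq_quot_primeB (hℓ : 0 < ℓ) (x : 𝓑 ⧸ primeB A) : ∃ y, y ^ ℓ = x := by
  obtain ⟨b, rfl⟩ := Ideal.Quotient.mk_surjective x
  obtain ⟨c, hc⟩ := IsAlgClosed.exists_pow_nat_eq (b : Qbar) hℓ
  have hci : IsIntegral ℤ c := IsIntegral.of_pow hℓ (hc ▸ b.2)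
  refine ⟨Ideal.Quotient.mk _ ⟨c, hci⟩, ?_⟩
  rw [← map_pow]
  congr 1
  exact Subtype.ext hc

lemma int_pow_prime_sub_self_mem (hℓ : ℓ.Prime) (n : ℤ) :
    n ^ ℓ - n ∈ Ideal.span {(ℓ : ℤ)} := by
  have : Fact ℓ.Prime := ⟨hℓ⟩
  rw [Ideal.mem_span_singleton, ← ZMod.intCast_zmod_eq_zero_iff_dvd]
  simp [ZMod.pow_card]

/-- Existence of a Frobenius element at the level of algebraic integers. -/
theorem exists_frob_B (hℓ : ℓ.Prime) (hA : A.LiesOverPrime ℓ) :
    ∃ σ : Γ, ∀ b : 𝓑, σ • b - b ^ ℓ ∈ primeB A := by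
  have := primeB_liesOver hℓ hA
  have : CharP (𝓑 ⧸ primeB A) ℓ := charP_quot_primeB hℓ hA
  have : Fact ℓ.Prime := ⟨hℓ⟩
  let F : (𝓑 ⧸ primeB A) →ₐ[ℤ ⧸ Ideal.span {(ℓ : ℤ)}] (𝓑 ⧸ primeB A) :=
    { frobenius (𝓑 ⧸ primeB A) ℓ with
      commutes' := fun r => by
        obtain ⟨n, rfl⟩ := Ideal.Quotient.mk_surjective r
        show (frobenius (𝓑 ⧸ primeB A) ℓ) _ = _
        rw [frobenius_def, ← map_pow, ← map_pow]
        congr 1
        rw [Ideal.Quotient.eq]
        exact int_pow_prime_sub_self_mem hℓ n }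
  have hbij : Function.Bijective F :=
    ⟨frobenius_inj (𝓑 ⧸ primeB A) ℓ, fun x => exists_pow_eq_quot_primeB hℓ.pos x⟩
  obtain ⟨g, hg⟩ := Ideal.Quotient.stabilizerHom_surjective_of_profinite (G := Γ)
    (Ideal.span {(ℓ : ℤ)}) (primeB A) (AlgEquiv.ofBijective F hbij)
  refine ⟨g.1, fun b => ?_⟩
  have h := DFunLike.congr_fun hg (Ideal.Quotient.mk _ b)
  rw [Ideal.Quotient.stabilizerHom_apply] at h
  rw [← Ideal.Quotient.eq, map_pow]
  exact h

end FrobEquiv

section Final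

variable {A : ValuationSubring Qbar}

lemma isUnit_inclB_iff (s : 𝓑) : IsUnit (inclB A s) ↔ (s : Qbar) ∉ A.nonunits := by
  rw [← coe_inclB A s, ValuationSubring.coe_mem_nonunits_iff, IsLocalRing.mem_maximalIdeal,
    mem_nonunits_iff, not_not]

/-- Every element of `A` is a fraction of algebraic integers with denominator a unit of `A`. -/
lemma exists_inclB_mul_eq (a : A) : ∃ b s : 𝓑, IsUnit (inclB A s) ∧ a * inclB A s = inclB A b := by
  have halg : IsAlgebraic ℤ (a : Qbar) :=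
    (IsFractionRing.isAlgebraic_iff ℤ ℚ Qbar).mpr (Algebra.IsAlgebraic.isAlgebraic (a : Qbar))
  obtain ⟨b, s, hb, hs, hsA, h⟩ := exists_integral_div_of_mem A (a : Qbar) a.2 halg
  refine ⟨⟨b, hb⟩, ⟨s, hs⟩, (isUnit_inclB_iff _).mpr hsA, Subtype.ext ?_⟩
  exact h

/-- An automorphism preserving units among algebraic integers preserves `A`. -/
lemma map_mem_of_forall_isUnit (τ : Γ)
    (hτ : ∀ s : 𝓑, IsUnit (inclB A s) → IsUnit (inclB A (τ • s))) (x : Qbar) (hx : x ∈ A) :
    τ x ∈ A := by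
  obtain ⟨b, s, hs, h⟩ := exists_inclB_mul_eq (⟨x, hx⟩ : A)
  have h' : x * (s : Qbar) = (b : Qbar) := congrArg Subtype.val h
  obtain ⟨t, ht⟩ := (hτ s hs).exists_right_inv
  have ht' : τ (s : Qbar) * (t : Qbar) = 1 := congrArg Subtype.val ht
  have h2 : τ x * τ (s : Qbar) = τ (b : Qbar) := by rw [← map_mul, h']
  have h3 : τ x = τ (b : Qbar) * (t : Qbar) := by
    rw [← h2, mul_assoc, ht', mul_one]
  rw [h3]
  exact A.mul_mem _ _ (inclB A (τ • b)).2 t.2

variable {ℓ : ℕ}

/-- Existence of Frobenius elements at every valuation subring of `ℚbar` over a prime. -/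
theorem exists_isFrobeniusAt_of_liesOverPrime (A : ValuationSubring Qbar) (hℓ : ℓ.Prime)
    (hA : A.LiesOverPrime ℓ) : ∃ σ : Γ, A.IsFrobeniusAt σ ℓ := by
  obtain ⟨σ, hσ⟩ := exists_frob_B hℓ hA
  -- Frobenius congruence in the residue field, for algebraic integers
  have hres : ∀ b : 𝓑, IsLocalRing.residue A (inclB A (σ • b)) =
      (IsLocalRing.residue A (inclB A b)) ^ ℓ := by
    intro b
    have h1 : inclB A (σ • b - b ^ ℓ) ∈ IsLocalRing.maximalIdeal A := hσ b
    rw [← IsLocalRing.residue_eq_zero_iff, map_sub, map_sub, map_pow, map_pow, sub_eq_zero] at h1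
    exact h1
  have hunit : ∀ b : 𝓑, IsUnit (inclB A (σ • b)) ↔ IsUnit (inclB A b) := by
    intro b
    rw [← IsLocalRing.residue_ne_zero_iff_isUnit, ← IsLocalRing.residue_ne_zero_iff_isUnit,
      hres b]
    exact pow_ne_zero_iff hℓ.ne_zero
  have hmem : ∀ x ∈ A, σ x ∈ A :=
    map_mem_of_forall_isUnit σ fun s hs => (hunit s).mpr hs
  have hmem' : ∀ x ∈ A, σ⁻¹ x ∈ A :=
    map_mem_of_forall_isUnit σ⁻¹ fun s hs => by
      rw [← hunit, smul_inv_smul]
      exact hs
  have hσA : σ ∈ A.decompositionSubgroup ℚ := by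
    rw [MulAction.mem_stabilizer_iff]
    ext x
    rw [ValuationSubring.mem_pointwise_smul_iff_inv_smul_mem]
    constructor
    · intro h
      have h2 : σ • (σ⁻¹ • x) ∈ A := hmem _ h
      rwa [smul_inv_smul] at h2
    · intro h
      exact hmem' x h
  refine ⟨σ, hσA, fun x => ?_⟩
  obtain ⟨a, rfl⟩ := IsLocalRing.residue_surjective x
  obtain ⟨b, s, hs, h⟩ := exists_inclB_mul_eq a
  have hsmul : ∀ c : 𝓑, (⟨σ, hσA⟩ : A.decompositionSubgroup ℚ) • inclB A c = inclB A (σ • c) :=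
    fun c => Subtype.ext rfl
  have h1 := congrArg (fun y => IsLocalRing.residue A ((⟨σ, hσA⟩ : A.decompositionSubgroup ℚ) • y)) h
  simp only [smul_mul', hsmul, map_mul, hres] at h1
  rw [← h, map_mul, mul_pow] at h1
  have hne : (IsLocalRing.residue A (inclB A s)) ^ ℓ ≠ 0 :=
    pow_ne_zero _ ((IsLocalRing.residue_ne_zero_iff_isUnit _).mpr hs)
  rw [← IsLocalRing.ResidueField.residue_smul, ← map_pow]
  exact mul_right_cancel₀ hne (by simpa using h1)

/-- For every prime there is a valuation subring of `ℚbar` lying over it. -/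
theorem exists_liesOverPrime (hℓ : ℓ.Prime) : ∃ A : ValuationSubring Qbar, A.LiesOverPrime ℓ := by
  have hI : Ideal.span {(⟨(ℓ : Qbar), ⟨(ℓ : ℤ), by simp⟩⟩ : (algebraMap ℤ Qbar).range)} ≠ ⊤ := by
    intro h
    rw [Ideal.eq_top_iff_one, Ideal.mem_span_singleton] at h
    obtain ⟨⟨c, n, rfl⟩, hc⟩ := h
    have h1 : ((1 : (algebraMap ℤ Qbar).range) : Qbar) = (ℓ : Qbar) * algebraMap ℤ Qbar n :=
      congrArg Subtype.val hc
    have h2 : ((1 : ℤ) : Qbar) = (((ℓ : ℤ) * n : ℤ) : Qbar) := by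
      push_cast
      simpa using h1
    have h3 : (1 : ℤ) = (ℓ : ℤ) * n := Int.cast_injective h2
    have h4 : (ℓ : ℤ) ∣ 1 := ⟨n, h3⟩
    have h5 : ℓ ∣ 1 := by exact_mod_cast h4
    exact hℓ.one_lt.ne' (Nat.dvd_one.mp h5)
  obtain ⟨V, -, hV⟩ := Ideal.image_subset_nonunits_valuationSubring _ hI
  exact ⟨V, hV ⟨_, Ideal.subset_span rfl, rfl⟩⟩

/-- **Existence of Frobenius elements**: for every prime `ℓ` there are a valuation subring of
`ℚbar` over `ℓ` and a Frobenius element at it. -/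
theorem exists_isFrobeniusAt (ℓ : ℕ) (hℓ : ℓ.Prime) :
    ∃ (A : ValuationSubring (AlgebraicClosure ℚ))
      (σ : AlgebraicClosure ℚ ≃ₐ[ℚ] AlgebraicClosure ℚ),
      A.LiesOverPrime ℓ ∧ A.IsFrobeniusAt σ ℓ := by
  obtain ⟨A, hA⟩ := exists_liesOverPrime hℓ
  obtain ⟨σ, hσ⟩ := exists_isFrobeniusAt_of_liesOverPrime A hℓ hA
  exact ⟨A, σ, hA, hσ⟩

end Final

end Fermat.Agent.S54.H94
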